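/-
S58 / block F8 [STAB], part 2 (helper20): **coefficient algebra of the `q`-stabilisation**.

`IsEigenSeq N a` are the prelude's normalised-eigenform relations (`CuspForm.IsNormalizedEigenform`)
for a bare coefficient sequence `a : ℕ → ℂ` at level `N`.  For a prime `q ∤ M` and `α + β = a_q`,
`α β = q`, the sequence `b_n = a_n - β a_{n/q}` satisfies them at level `M q`, with `b_n = a_n`
for `q ∤ n` and `b_q = α`.  Pure arithmetic, Mathlib only.
-/
import Mathlib

set_option autoImplicit false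

namespace Fermat.Agent.S58.Stab.Coeff

/-- The prelude's normalised-eigenform relations for a coefficient sequence at level `N`. -/
structure IsEigenSeq (N : ℕ) (a : ℕ → ℂ) : Prop where
  one : a 1 = 1
  mul : ∀ m n : ℕ, m.Coprime n → a (m * n) = a m * a n
  pow_good : ∀ p r : ℕ, p.Prime → ¬ p ∣ N →
    a (p ^ (r + 2)) = a p * a (p ^ (r + 1)) - p * a (p ^ r)
  pow_bad : ∀ p r : ℕ, p.Prime → p ∣ N → a (p ^ (r + 2)) = a p * a (p ^ (r + 1))

/-- The coefficients of `f(d ·)`. -/
def shift (d : ℕ) (a : ℕ → ℂ) (n : ℕ) : ℂ := if d ∣ n then a (n / d) else 0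

/-- The coefficients of `f - β f(q ·)`. -/
def stab (q : ℕ) (β : ℂ) (a : ℕ → ℂ) (n : ℕ) : ℂ := a n - β * shift q a n

theorem shift_of_not_dvd {d : ℕ} {a : ℕ → ℂ} {n : ℕ} (h : ¬ d ∣ n) : shift d a n = 0 :=
  if_neg h

theorem shift_of_dvd {d : ℕ} {a : ℕ → ℂ} {n : ℕ} (h : d ∣ n) : shift d a n = a (n / d) :=
  if_pos h

theorem stab_of_not_dvd {q : ℕ} {β : ℂ} {a : ℕ → ℂ} {n : ℕ} (h : ¬ q ∣ n) :
    stab q β a n = a n := by
  rw [stab, shift_of_not_dvd h, mul_zero, sub_zero]

theorem stab_of_dvd {q : ℕ} {β : ℂ} {a : ℕ → ℂ} {n : ℕ} (h : q ∣ n) :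
    stab q β a n = a n - β * a (n / q) := by
  rw [stab, shift_of_dvd h]

theorem stab_of_coprime {q : ℕ} (hq : q.Prime) {β : ℂ} {a : ℕ → ℂ} {n : ℕ} (h : n.Coprime q) :
    stab q β a n = a n :=
  stab_of_not_dvd fun hd => hq.one_lt.ne' (Nat.eq_one_of_dvd_coprimes h hd dvd_rfl)

theorem not_dvd_prime_pow {p q : ℕ} (hp : p.Prime) (hq : q.Prime) (hpq : p ≠ q) (j : ℕ) :
    ¬ q ∣ p ^ j := fun h =>
  hpq ((Nat.prime_dvd_prime_iff_eq hq hp).mp (hq.dvd_of_dvd_pow h)).symm

/-- Restriction of level: the relations at level `M` with `q ∣ M` hold at level `M q`. -/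
theorem IsEigenSeq.of_dvd {M q : ℕ} {a : ℕ → ℂ} (h : IsEigenSeq M a) (hq : q.Prime)
    (hqM : q ∣ M) : IsEigenSeq (M * q) a where
  one := h.one
  mul := h.mul
  pow_good := fun p r hp hpN => h.pow_good p r hp fun hpM => hpN (hpM.mul_right q)
  pow_bad := fun p r hp hpN => by
    refine h.pow_bad p r hp ?_
    rcases (Nat.Prime.dvd_mul hp).mp hpN with h1 | h1
    · exact h1
    · rw [(Nat.prime_dvd_prime_iff_eq hp hq).mp h1]
      exact hqM

/-- **The `q`-stabilisation is an eigen-sequence of level `M q`.** -/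
theorem IsEigenSeq.stab {M q : ℕ} {a : ℕ → ℂ} (h : IsEigenSeq M a) (hq : q.Prime)
    (hqM : ¬ q ∣ M) {α β : ℂ} (hsum : α + β = a q) (hprod : α * β = q) :
    IsEigenSeq (M * q) (stab q β a) where
  one := by
    rw [stab_of_not_dvd (Nat.Prime.not_dvd_one hq)]
    exact h.one
  mul := fun m n hmn => by
    by_cases hm : q ∣ m
    · have hn : ¬ q ∣ n := fun hn => Nat.Prime.not_dvd_one hq (hmn ▸ Nat.dvd_gcd hm hn)
      have hmn' : q ∣ m * n := hm.mul_right n
      obtain ⟨m', rfl⟩ := hm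
      have hcop : Nat.Coprime m' n := Nat.Coprime.coprime_dvd_left (Dvd.intro_left q rfl) hmn
      have e1 : q * m' * n / q = m' * n := by
        rw [mul_assoc]
        exact Nat.mul_div_cancel_left _ hq.pos
      have e2 : q * m' / q = m' := Nat.mul_div_cancel_left _ hq.pos
      rw [stab_of_dvd hmn', stab_of_dvd (Dvd.intro m' rfl), stab_of_not_dvd hn, e1, e2,
        h.mul _ _ hmn, h.mul _ _ hcop]
      ring
    · by_cases hn : q ∣ n
      · have hmn' : q ∣ m * n := hn.mul_left m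
        obtain ⟨n', rfl⟩ := hn
        have hcop : Nat.Coprime m n' := Nat.Coprime.coprime_dvd_right (Dvd.intro_left q rfl) hmn
        have e1 : m * (q * n') / q = m * n' := by
          rw [mul_left_comm]
          exact Nat.mul_div_cancel_left _ hq.pos
        have e2 : q * n' / q = n' := Nat.mul_div_cancel_left _ hq.pos
        rw [stab_of_dvd hmn', stab_of_dvd (Dvd.intro n' rfl), stab_of_not_dvd hm, e1, e2,
          h.mul _ _ hmn, h.mul _ _ hcop]
        ring
      · have hmn' : ¬ q ∣ m * n := fun hd =>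
          ((Nat.Prime.dvd_mul hq).mp hd).elim hm hn
        rw [stab_of_not_dvd hmn', stab_of_not_dvd hm, stab_of_not_dvd hn, h.mul _ _ hmn]
  pow_good := fun p r hp hpN => by
    have hpM : ¬ p ∣ M := fun hpM => hpN (hpM.mul_right q)
    have hpq : p ≠ q := fun e => hpN (e ▸ Dvd.intro_left M rfl)
    rw [stab_of_not_dvd (not_dvd_prime_pow hp hq hpq _),
      stab_of_not_dvd (not_dvd_prime_pow hp hq hpq _),
      stab_of_not_dvd (not_dvd_prime_pow hp hq hpq _),
      stab_of_not_dvd (fun hd => hpq ((Nat.prime_dvd_prime_iff_eq hq hp).mp hd).symm)]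
    exact h.pow_good p r hp hpM
  pow_bad := fun p r hp hpN => by
    by_cases hpq : p = q
    · subst hpq
      have e1 : p ^ (r + 2) / p = p ^ (r + 1) := by
        rw [pow_succ]
        exact Nat.mul_div_cancel _ hp.pos
      have e2 : p ^ (r + 1) / p = p ^ r := by
        rw [pow_succ]
        exact Nat.mul_div_cancel _ hp.pos
      have e3 : p / p = 1 := Nat.div_self hp.pos
      rw [stab_of_dvd (Dvd.intro_left (p ^ (r + 1)) (pow_succ p (r + 1)).symm),
        stab_of_dvd (Dvd.intro_left (p ^ r) (pow_succ p r).symm), stab_of_dvd dvd_rfl,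
        e1, e2, e3, h.one, h.pow_good p r hp hqM]
      linear_combination a (p ^ r) * hprod - a (p ^ r) * β * hsum
    · have hpM : p ∣ M := by
        rcases (Nat.Prime.dvd_mul hp).mp hpN with h1 | h1
        · exact h1
        · exact absurd ((Nat.prime_dvd_prime_iff_eq hp hq).mp h1) hpq
      rw [stab_of_not_dvd (not_dvd_prime_pow hp hq hpq _),
        stab_of_not_dvd (not_dvd_prime_pow hp hq hpq _),
        stab_of_not_dvd (fun hd => hpq ((Nat.prime_dvd_prime_iff_eq hq hp).mp hd).symm)]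
      exact h.pow_bad p r hp hpM

/-- The `q`-th coefficient of the stabilisation is the root `α`. -/
theorem stab_prime {M q : ℕ} {a : ℕ → ℂ} (h : IsEigenSeq M a) (hq : q.Prime)
    {α β : ℂ} (hsum : α + β = a q) : stab q β a q = α := by
  rw [stab_of_dvd dvd_rfl, Nat.div_self hq.pos, h.one]
  linear_combination -hsum

/-- Existence of the two roots of `X² - a X + q`. -/
theorem exists_roots (a q : ℂ) : ∃ α β : ℂ, α + β = a ∧ α * β = q := by
  obtain ⟨α, hα⟩ := IsAlgClosed.exists_eq_mul_self (a ^ 2 - 4 * q)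
  exact ⟨(a + α) / 2, (a - α) / 2, by ring, by linear_combination (1 / 4 : ℂ) * hα⟩

end Fermat.Agent.S58.Stab.Coeff
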