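/-
S58 / block F8 [STAB], part 1 (helper20): **general-level `V_d`**.

For a cusp form `f` of weight `k` on `Γ₀(M)` (function-level predicate `M2F.IsCF`) and `d ≥ 1`, the
function `z ↦ f (d z)` is a cusp form of weight `k` on `Γ₀(M d)`, and its `q`-expansion is
`a_n(f(d·)) = a_{n/d}(f)` for `d ∣ n`, `0` otherwise.  (The level-one case is `M2F/LevelRaise`.)
-/
import Mathlib
import Fermat.Agent.M2F.LevelRaise
import Fermat.Agent.S24.QExp

set_option autoImplicit false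
set_option linter.unusedSectionVars false

namespace Fermat.Agent.S58.Stab.LevelRaise

open UpperHalfPlane ModularForm MatrixGroups CongruenceSubgroup Matrix.SpecialLinearGroup OnePoint
open Fermat.Agent.M2 Fermat.Agent.M2F Fermat.Agent.M2F.LevelRaise Fermat.Agent.S24.QExp
open scoped Manifold Topology

/-- Conjugation of `Γ₀(M d)` by `diag(d,1)` lands in `Γ₀(M)`. -/
theorem exists_conj_mul (M d : ℕ) [NeZero d] {γ : SL(2, ℤ)} (hγ : γ ∈ Gamma0 (M * d)) :
    ∃ γ' ∈ Gamma0 M, heckeDiagMatrix d * mapGL ℝ γ = mapGL ℝ γ' * heckeDiagMatrix d := by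
  have hd : d ≠ 0 := NeZero.ne d
  have hc : ((M * d : ℕ) : ℤ) ∣ γ 1 0 :=
    (ZMod.intCast_zmod_eq_zero_iff_dvd _ _).mp (Gamma0_mem.mp hγ)
  obtain ⟨c', hc'⟩ := hc
  have hdet : γ 0 0 * γ 1 1 - γ 0 1 * γ 1 0 = 1 := by
    have := γ.det_coe
    rwa [Matrix.det_fin_two] at this
  refine ⟨⟨!![γ 0 0, d * γ 0 1; M * c', γ 1 1], ?_⟩, ?_, ?_⟩
  · rw [Matrix.det_fin_two_of]
    rw [hc'] at hdet
    push_cast at hdet
    linear_combination hdet
  · refine Gamma0_mem.mpr ?_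
    show (((M : ℤ) * c' : ℤ) : ZMod M) = 0
    simp
  · ext i j
    fin_cases i <;> fin_cases j <;>
      simp [Matrix.mul_apply, Fin.sum_univ_two, val_heckeDiagMatrix hd, hc', mapGL_mk_apply] <;>
      ring

/-- **General level raising, cuspidal version**: `f ∣[k] diag(d,1)` is a cusp form on `Γ₀(M d)`
when `f` is one on `Γ₀(M)`. -/
theorem isCF_slash_heckeDiag_mul (M d : ℕ) [NeZero M] [NeZero d] {k : ℤ} {f : ℍ → ℂ}
    (hf : IsCF (Gamma0 M) k f) : IsCF (Gamma0 (M * d)) k (f ∣[k] heckeDiagMatrix d) where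
  holo := hf.holo.slash k _
  inv := fun γ hγ => by
    obtain ⟨γ', hγ', h⟩ := exists_conj_mul M d hγ
    rw [slash_SL_eq, ← SlashAction.slash_mul, h, SlashAction.slash_mul, ← slash_SL_eq,
      hf.inv γ' hγ']
  zero := fun γ => by
    rw [slash_SL_eq, ← SlashAction.slash_mul]
    have hc := (Subgroup.IsArithmetic.isCusp_iff_isCusp_SL2Z
      (((Gamma0 M : Subgroup SL(2, ℤ)) : Subgroup (GL (Fin 2) ℝ)))).mpr (isCusp_heckeDiag_mul d γ)
    exact CuspFormClass.zero_at_cusps (hf.toCuspForm (Gamma0 M) k) hc _ rfl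

/-- **General level raising, modular version.** -/
theorem isMF_slash_heckeDiag_mul (M d : ℕ) [NeZero M] [NeZero d] {k : ℤ} {f : ℍ → ℂ}
    (hf : IsMF (Gamma0 M) k f) : IsMF (Gamma0 (M * d)) k (f ∣[k] heckeDiagMatrix d) where
  holo := hf.holo.slash k _
  inv := fun γ hγ => by
    obtain ⟨γ', hγ', h⟩ := exists_conj_mul M d hγ
    rw [slash_SL_eq, ← SlashAction.slash_mul, h, SlashAction.slash_mul, ← slash_SL_eq,
      hf.inv γ' hγ']
  bdd := fun γ => by
    rw [slash_SL_eq, ← SlashAction.slash_mul]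
    have hc := (Subgroup.IsArithmetic.isCusp_iff_isCusp_SL2Z
      (((Gamma0 M : Subgroup SL(2, ℤ)) : Subgroup (GL (Fin 2) ℝ)))).mpr (isCusp_heckeDiag_mul d γ)
    exact ModularFormClass.bdd_at_cusps (hf.toModularForm (Gamma0 M) k) hc _ rfl

theorem heckeDiag_smul_eq_scaleH (d : ℕ) [NeZero d] (z : ℍ) :
    ModularForm.heckeDiagMatrix d • z = JN.scaleH d z := by
  apply UpperHalfPlane.ext
  rw [coe_heckeDiag_smul, JN.coe_scaleH]

theorem comp_scaleH_eq_smul_slash (d : ℕ) [NeZero d] (k : ℤ) (F : ℍ → ℂ) :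
    F ∘ JN.scaleH d = ((d : ℂ) ^ (k - 1))⁻¹ • (F ∣[k] ModularForm.heckeDiagMatrix d) := by
  funext z
  have hd : (d : ℂ) ≠ 0 := Nat.cast_ne_zero.mpr (NeZero.ne d)
  have hd' : (d : ℂ) ^ (k - 1) ≠ 0 := zpow_ne_zero _ hd
  rw [Pi.smul_apply, slash_heckeDiag_apply, heckeDiag_smul_eq_scaleH,
    Function.comp_apply, smul_eq_mul]
  field_simp

/-- **`V_d`**: `f(d ·)` is a cusp form on `Γ₀(M d)` when `f` is one on `Γ₀(M)`. -/
theorem isCF_comp_scaleH (M d : ℕ) [NeZero M] [NeZero d] {k : ℤ} {f : ℍ → ℂ}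
    (hf : IsCF (Gamma0 M) k f) : IsCF (Gamma0 (M * d)) k (f ∘ JN.scaleH d) := by
  rw [comp_scaleH_eq_smul_slash d k f]
  exact (isCF_slash_heckeDiag_mul M d hf).smul _

theorem isMF_comp_scaleH (M d : ℕ) [NeZero M] [NeZero d] {k : ℤ} {f : ℍ → ℂ}
    (hf : IsMF (Gamma0 M) k f) : IsMF (Gamma0 (M * d)) k (f ∘ JN.scaleH d) := by
  rw [comp_scaleH_eq_smul_slash d k f]
  exact (isMF_slash_heckeDiag_mul M d hf).smul _

/-- `1`-periodicity of a `Γ₀(M)`-invariant function. -/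
theorem vadd_one_of_inv (M : ℕ) {k : ℤ} {f : ℍ → ℂ}
    (hf : ∀ γ ∈ Gamma0 M, f ∣[k] γ = f) (z : ℍ) : f ((1 : ℝ) +ᵥ z) = f z := by
  have h := congrFun (hf ModularGroup.T (T_mem_Gamma0 M)) z
  rw [SL_slash_apply, UpperHalfPlane.modular_T_smul] at h
  have hden : denom (ModularGroup.T : SL(2, ℤ)) z = 1 := by
    rw [ModularGroup.denom_apply]
    simp [ModularGroup.T]
  rw [hden, one_zpow, mul_one] at h
  exact h

/-- A modular form on `Γ₀(M)` is holomorphic, `1`-periodic and bounded at `i∞`. -/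
theorem IsMF.isHol {M : ℕ} {k : ℤ} {f : ℍ → ℂ} (hf : IsMF (Gamma0 M) k f) : IsHol f := by
  refine ⟨hf.holo, CuspVal.periodic_of_vadd (vadd_one_of_inv M hf.inv), ?_⟩
  have := hf.bdd 1
  rwa [SlashAction.slash_one] at this

theorem IsCF.isHol {M : ℕ} {k : ℤ} {f : ℍ → ℂ} (hf : IsCF (Gamma0 M) k f) : IsHol f :=
  IsMF.isHol hf.isMF

/-- `q`-coefficients of `f(d ·)`. -/
theorem qExpansion_comp_scaleH_coeff' (d : ℕ) [NeZero d] {F : ℍ → ℂ} (hF : IsHol F) (n : ℕ) :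
    (qExpansion 1 (F ∘ JN.scaleH d)).coeff n =
      if d ∣ n then (qExpansion 1 F).coeff (n / d) else 0 :=
  qExpansion_comp_scaleH_coeff d hF n

end Fermat.Agent.S58.Stab.LevelRaise
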