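/-
S58 / block F8 [STAB], part 3 (helper20): **level raising of a prelude-eigenform by
`q`-stabilisation**.

For `M ∣ C` and a normalised eigenform `g` (prelude sense) of level `M` there is a normalised
eigenform `g'` of level `C` with `a_n(g') = a_n(g)` for all `n` prime to `C / M`.
One prime `q` at a time: if `q ∣ M`, `g` itself works at level `M q`; if `q ∤ M`,
`g' = g - β g(q ·)` with `α + β = a_q(g)`, `α β = q`.
-/
import Mathlib
import Fermat.Prelude.Def_FLTPrelim_Modularity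
import Fermat.Agent.S58.Stab.LevelRaise
import Fermat.Agent.S58.Stab.Coeff

set_option autoImplicit false
set_option linter.unusedSectionVars false

namespace Fermat.Agent.S58.Stab

open UpperHalfPlane ModularForm MatrixGroups CongruenceSubgroup
open Fermat.Agent.M2 Fermat.Agent.M2F Fermat.Agent.S24.QExp
open Fermat.Agent.S58.Stab.LevelRaise Fermat.Agent.S58.Stab.Coeff
open scoped Manifold Topology

/-- The coefficient sequence of the `q`-expansion (at width one) of a function. -/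
noncomputable def coeffs (f : ℍ → ℂ) (n : ℕ) : ℂ := (qExpansion 1 f).coeff n

theorem qCoeff_eq_coeffs (f : ℍ → ℂ) (n : ℕ) : ModularFormClass.qCoeff f n = coeffs f n := rfl

/-- The prelude's `IsNormalizedEigenform` is `IsEigenSeq` of the coefficient sequence. -/
theorem isNormalizedEigenform_iff {N : ℕ} (f : CuspForm (Gamma0 N) 2) :
    f.IsNormalizedEigenform ↔ IsEigenSeq N (coeffs (f : ℍ → ℂ)) :=
  ⟨fun h => ⟨h.qCoeff_one, h.qCoeff_mul_of_coprime, h.qCoeff_prime_pow_of_not_dvd,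
    h.qCoeff_prime_pow_of_dvd⟩, fun h => ⟨h.one, h.mul, h.pow_good, h.pow_bad⟩⟩

theorem isHol_smul' (c : ℂ) {F : ℍ → ℂ} (hF : IsHol F) : IsHol (c • F) := by
  have := (IsHol.const c).mul hF
  have e : (fun _ : ℍ => c) * F = c • F := by
    funext z; simp
  rwa [e] at this

theorem coeffs_comp_scaleH (d : ℕ) [NeZero d] {F : ℍ → ℂ} (hF : IsHol F) :
    coeffs (F ∘ JN.scaleH d) = shift d (coeffs F) :=
  funext fun n => qExpansion_comp_scaleH_coeff d hF n

/-- Coefficients of `F - β F(q ·)`. -/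
theorem coeffs_stab (q : ℕ) [NeZero q] (β : ℂ) {F : ℍ → ℂ} (hF : IsHol F) :
    coeffs (F + (-β) • (F ∘ JN.scaleH q)) = stab q β (coeffs F) := by
  have hG : IsHol (F ∘ JN.scaleH q) := hF.comp_scaleH q
  funext n
  have h1 : coeffs (F + (-β) • (F ∘ JN.scaleH q)) n =
      coeffs F n + (-β) * coeffs (F ∘ JN.scaleH q) n := by
    unfold coeffs
    rw [IsHol.qExpansion_add hF (isHol_smul' _ hG),
      UpperHalfPlane.qExpansion_smul hG.analyticAt (-β)]
    simp
  rw [h1, coeffs_comp_scaleH q hF, stab]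
  ring

/-- **One prime**, function level. -/
theorem step_fun {M q : ℕ} [NeZero M] (hq : q.Prime) {f : ℍ → ℂ}
    (hf : IsCF (Gamma0 M) 2 f) (hE : IsEigenSeq M (coeffs f)) :
    ∃ f' : ℍ → ℂ, IsCF (Gamma0 (M * q)) 2 f' ∧ IsEigenSeq (M * q) (coeffs f') ∧
      ∀ n : ℕ, n.Coprime q → coeffs f' n = coeffs f n := by
  have : NeZero q := ⟨hq.ne_zero⟩
  have hle : Gamma0 (M * q) ≤ Gamma0 M := Gamma0_le_of_dvd (M * q) (Dvd.intro q rfl)
  by_cases hqM : q ∣ M
  · exact ⟨f, hf.mono hle, hE.of_dvd hq hqM, fun _ _ => rfl⟩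
  · obtain ⟨α, β, hsum, hprod⟩ := exists_roots (coeffs f q) (q : ℂ)
    have hco : coeffs (f + (-β) • (f ∘ JN.scaleH q)) = stab q β (coeffs f) :=
      coeffs_stab q β (IsCF.isHol hf)
    refine ⟨f + (-β) • (f ∘ JN.scaleH q),
      (hf.mono hle).add ((isCF_comp_scaleH M q hf).smul (-β)), ?_, fun n hn => ?_⟩
    · rw [hco]
      exact hE.stab hq hqM hsum hprod
    · rw [hco]
      exact stab_of_coprime hq hn

/-- **Level raising by any `d ≠ 0`**, function level. -/
theorem raise_fun (d : ℕ) : d ≠ 0 → ∀ (M : ℕ) [NeZero M] (f : ℍ → ℂ),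
    IsCF (Gamma0 M) 2 f → IsEigenSeq M (coeffs f) →
    ∃ f' : ℍ → ℂ, IsCF (Gamma0 (M * d)) 2 f' ∧ IsEigenSeq (M * d) (coeffs f') ∧
      ∀ n : ℕ, n.Coprime d → coeffs f' n = coeffs f n := by
  induction d using Nat.recOnMul with
  | zero => intro h; exact absurd rfl h
  | one =>
    intro _ M _ f hf hE
    exact ⟨f, by rwa [mul_one], by rwa [mul_one], fun _ _ => rfl⟩
  | prime p hp =>
    intro _ M _ f hf hE
    exact step_fun hp hf hE
  | mul a b iha ihb =>
    intro hab M _ f hf hE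
    have ha : a ≠ 0 := left_ne_zero_of_mul hab
    have hb : b ≠ 0 := right_ne_zero_of_mul hab
    obtain ⟨f1, h1, hE1, hc1⟩ := iha ha M f hf hE
    have : NeZero (M * a) := ⟨mul_ne_zero (NeZero.ne M) ha⟩
    obtain ⟨f2, h2, hE2, hc2⟩ := ihb hb (M * a) f1 h1 hE1
    refine ⟨f2, by rwa [← mul_assoc], by rwa [← mul_assoc], fun n hn => ?_⟩
    rw [hc2 n (Nat.Coprime.coprime_mul_left_right hn),
      hc1 n (Nat.Coprime.coprime_mul_right_right hn)]

/-- **One-step `q`-stabilisation** of a prelude-eigenform (`q ∤ M` is NOT needed: for `q ∣ M`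
the form itself works). -/
theorem exists_stabilised {M q : ℕ} [NeZero M] (hq : q.Prime)
    (g : CuspForm (Gamma0 M) 2) (hg : g.IsNormalizedEigenform) :
    ∃ g' : CuspForm (Gamma0 (M * q)) 2, g'.IsNormalizedEigenform ∧
      ∀ n : ℕ, n.Coprime q → ModularFormClass.qCoeff g' n = ModularFormClass.qCoeff g n := by
  have : NeZero (M * q) := ⟨mul_ne_zero (NeZero.ne M) hq.ne_zero⟩
  obtain ⟨f', hf', hE', hc'⟩ := step_fun hq (isCF_coe g) ((isNormalizedEigenform_iff g).mp hg)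
  exact ⟨hf'.toCuspForm (Gamma0 (M * q)) 2, (isNormalizedEigenform_iff _).mpr hE', hc'⟩

/-- **[STAB] Level raising of a prelude-eigenform from `M` to any multiple `C`**: same
coefficients at all `n` prime to `C / M`. -/
theorem exists_eigenform_of_dvd {M C : ℕ} [NeZero M] [NeZero C] (hMC : M ∣ C)
    (g : CuspForm (Gamma0 M) 2) (hg : g.IsNormalizedEigenform) :
    ∃ g' : CuspForm (Gamma0 C) 2, g'.IsNormalizedEigenform ∧
      ∀ n : ℕ, n.Coprime (C / M) → ModularFormClass.qCoeff g' n = ModularFormClass.qCoeff g n := by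
  obtain ⟨d, rfl⟩ := hMC
  have hd : d ≠ 0 := right_ne_zero_of_mul (NeZero.ne (M * d))
  obtain ⟨f', hf', hE', hc'⟩ :=
    raise_fun d hd M g (isCF_coe g) ((isNormalizedEigenform_iff g).mp hg)
  refine ⟨hf'.toCuspForm (Gamma0 (M * d)) 2, (isNormalizedEigenform_iff _).mpr hE', fun n hn => ?_⟩
  rw [Nat.mul_div_cancel_left d (NeZero.pos M)] at hn
  exact hc' n hn

/-- Corollary in the shape used for `IsModularModelOfLevel`: all primes `ℓ ∤ C` keep their
coefficient. -/
theorem exists_eigenform_of_dvd_prime {M C : ℕ} [NeZero M] [NeZero C] (hMC : M ∣ C)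
    (g : CuspForm (Gamma0 M) 2) (hg : g.IsNormalizedEigenform) :
    ∃ g' : CuspForm (Gamma0 C) 2, g'.IsNormalizedEigenform ∧
      ∀ ℓ : ℕ, ℓ.Prime → ¬ ℓ ∣ C → ModularFormClass.qCoeff g' ℓ = ModularFormClass.qCoeff g ℓ := by
  obtain ⟨g', hg', h⟩ := exists_eigenform_of_dvd hMC g hg
  refine ⟨g', hg', fun ℓ hℓ hℓC => h ℓ ?_⟩
  refine (Nat.Prime.coprime_iff_not_dvd hℓ).mpr fun hd => hℓC ?_
  exact hd.trans (Nat.div_dvd_of_dvd hMC)

/-- The shape consumed by S58: an eigenform of level `M ∣ C` matching `W` at all good primes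
`ℓ ∤ C` makes `W` modular of level `C`. -/
theorem isModularModelOfLevel_of_dvd (W : WeierstrassCurve ℤ) {M C : ℕ} [NeZero M] [NeZero C]
    (hMC : M ∣ C) (g : CuspForm (Gamma0 M) 2) (hg : g.IsNormalizedEigenform)
    (h : ∀ ℓ : ℕ, ℓ.Prime → W.IsGoodPrimeFor ℓ → ¬ ℓ ∣ C →
      ModularFormClass.qCoeff g ℓ = (W.apOfModel ℓ : ℂ)) :
    W.IsModularModelOfLevel C := by
  obtain ⟨g', hg', hc⟩ := exists_eigenform_of_dvd_prime hMC g hg
  exact ⟨g', hg', fun ℓ hℓ hgood hℓC => (hc ℓ hℓ hℓC).trans (h ℓ hℓ hgood hℓC)⟩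

end Fermat.Agent.S58.Stab
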